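import Fermat.Agent.LT.T3.H681.SatakeShape

/-!
# Row LT, tower T7, node T7.L2.1.H2b.3 `H893.SphHypC893` (helper681, SPARE), OFF-MAIN -- part 1:
# the Satake transform is injective (T6 form)

No hole, nothing assumed.  ADDITIVE (new names only, suffix `681`, namespace
`Fermat.Agent.LT.T7.H681`).

* `satCoef681 D lam` : the coefficients of the Satake transform of `1_{K lam K}`
  (`A_{n,b} - A_{n-2,b+1}`, `lam = (n + b, b)`);
* `laur_satCoef681` : its Laurent polynomial is `T6.satake q lam`;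
* `satCoef_self681`, `satCoef_zero681` : triangularity;
* `satT_inj681` : two dominant functions with the same Satake transform are equal.
-/

set_option autoImplicit false
set_option linter.unusedSectionVars false

open scoped Classical

noncomputable section

namespace Fermat.Agent.LT.T7.H681

open Fermat.Agent.LT.T6 Fermat.Agent.LT.T6.H305 Fermat.Agent.LT.T3.AS Fermat.Agent.LT.T3.H263
  Fermat.Agent.LT.T3.H681

section Abstract

variable {k : Type} [Field k] [Valued k Γ₀]

/-- The coefficients of the Satake transform of the double coset `lam`. -/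
def satCoef681 (D : ResData k) (lam m : ℤ × ℤ) : ℂ :=
  Acoef263 D (lam.1 - lam.2).toNat lam.2 m
    - (if 2 ≤ (lam.1 - lam.2).toNat
        then Acoef263 D ((lam.1 - lam.2).toNat - 2) (lam.2 + 1) m else 0)

/-- A finite set which contains the support of `satCoef681 D lam`. -/
def satSupp681 (lam : ℤ × ℤ) : Finset (ℤ × ℤ) :=
  (Finset.HasAntidiagonal.antidiagonal (lam.1 - lam.2).toNat).image
      (fun p : ℕ × ℕ => ((lam.2 + (p.1 : ℤ), lam.2 + (p.2 : ℤ)) : ℤ × ℤ))
    ∪ (Finset.HasAntidiagonal.antidiagonal ((lam.1 - lam.2).toNat - 2)).image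
      (fun p : ℕ × ℕ => ((lam.2 + 1 + (p.1 : ℤ), lam.2 + 1 + (p.2 : ℤ)) : ℤ × ℤ))

theorem eqns_realised_satInj681 : True := by
  have _h0 := @satCoef681.eq_1
  have _h1 := @satSupp681.eq_1
  have _g0 := @satCoef681.eq_def
  have _g1 := @satSupp681.eq_def
  trivial

theorem satCoef_mem681 (D : ResData k) (lam m : ℤ × ℤ) (h : satCoef681 D lam m ≠ 0) :
    m ∈ satSupp681 lam := by
  unfold satSupp681
  rw [Finset.mem_union]
  by_cases h1 : Acoef263 D (lam.1 - lam.2).toNat lam.2 m = 0
  · right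
    have h2 : Acoef263 D ((lam.1 - lam.2).toNat - 2) (lam.2 + 1) m ≠ 0 := by
      intro h2
      apply h
      unfold satCoef681
      rw [h1, h2]
      simp
    exact Finset.mem_coe.1 (acoef_support263 D _ _ (Function.mem_support.2 h2))
  · left
    exact Finset.mem_coe.1 (acoef_support263 D _ _ (Function.mem_support.2 h1))

theorem acoef_fin681 (D : ResData k) (n : ℕ) (m : ℤ) :
    (Function.support (Acoef263 D n m)).Finite :=
  (Finset.finite_toSet _).subset (acoef_support263 D n m)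

/-- The Laurent polynomial of `satCoef681 D lam` is the Satake transform of `lam`. -/
theorem laur_satCoef681 (D : ResData k) (lam : ℤ × ℤ) (z₁ z₂ : ℂ) (hz : z₁ * z₂ ≠ 0) :
    laur263 (satCoef681 D lam) z₁ z₂ = satake D.T.card lam z₁ z₂ := by
  have hw := sq_sq263 D
  unfold satake
  by_cases h2 : 2 ≤ (lam.1 - lam.2).toNat
  · obtain ⟨n, hn⟩ : ∃ n, (lam.1 - lam.2).toNat = n + 2 :=
      ⟨(lam.1 - lam.2).toNat - 2, by omega⟩
    have e : satCoef681 D lam
        = fun m => Acoef263 D (n + 2) lam.2 m + (-1) * Acoef263 D n (lam.2 + 1) m := by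
      funext m
      unfold satCoef681
      rw [if_pos h2, hn]
      simp only [Nat.add_sub_cancel]
      ring
    have hfin2 : (Function.support (fun m => (-1 : ℂ) * Acoef263 D n (lam.2 + 1) m)).Finite := by
      refine (acoef_fin681 D n (lam.2 + 1)).subset ?_
      intro m hm
      rw [Function.mem_support] at hm ⊢
      intro h0
      apply hm
      rw [h0, mul_zero]
    rw [e, laur_add263 (acoef_fin681 D _ _) hfin2, laur_smul263, laur_acoef263 D _ _ _ _ hz,
      laur_acoef263 D _ _ _ _ hz, hn, satPoly_eq_alpha]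
    have ha := alpha_eq263 D.T.card (sq263 D) z₁ z₂ hw
    have e1 : (((Real.sqrt (D.T.card : ℝ) : ℝ) : ℂ)) = sq263 D := rfl
    rw [e1, ha (n + 2), ha n, zpow_add_one₀ hz]
    ring
  · have e : satCoef681 D lam = Acoef263 D (lam.1 - lam.2).toNat lam.2 := by
      funext m
      unfold satCoef681
      rw [if_neg h2, sub_zero]
    rw [e, laur_acoef263 D _ _ _ _ hz]
    have hn : (lam.1 - lam.2).toNat = 0 ∨ (lam.1 - lam.2).toNat = 1 := by omega
    rcases hn with hn | hn
    · rw [hn, satPoly_zero, hom_zero263]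
      ring
    · rw [hn, satPoly_one]
      have h1 : hom263 z₁ z₂ 1 = z₁ + z₂ := by
        have := hom_succ263 z₁ z₂ 0
        rw [hom_zero263] at this
        rw [show (1 : ℕ) = 0 + 1 from rfl, this]
        ring
      have e1 : (((Real.sqrt (D.T.card : ℝ) : ℝ) : ℂ)) = sq263 D := rfl
      rw [h1, e1]
      ring

theorem satCoef_self681 (D : ResData k) (lam : ℤ × ℤ) (h : lam.2 ≤ lam.1) :
    satCoef681 D lam lam = sq263 D ^ (lam.1 - lam.2).toNat := by
  have h1 : lam.2 ≤ lam.1 ∧ lam.2 ≤ lam.2 ∧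
      lam.1 + lam.2 = (((lam.1 - lam.2).toNat : ℕ) : ℤ) + 2 * lam.2 := by
    refine ⟨h, le_refl _, ?_⟩
    omega
  have h2 : ¬ (lam.2 + 1 ≤ lam.1 ∧ lam.2 + 1 ≤ lam.2 ∧
      lam.1 + lam.2 = ((((lam.1 - lam.2).toNat - 2 : ℕ) : ℕ) : ℤ) + 2 * (lam.2 + 1)) := by
    rintro ⟨_, b, _⟩
    omega
  unfold satCoef681 Acoef263
  rw [if_pos h1, if_neg h2]
  simp

theorem satCoef_zero681 (D : ResData k) (lam m : ℤ × ℤ) (h : lam.2 ≤ lam.1) (hm : m.2 ≤ lam.2)
    (hne : lam ≠ m) : satCoef681 D lam m = 0 := by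
  have h1 : ¬ (lam.2 ≤ m.1 ∧ lam.2 ≤ m.2 ∧
      m.1 + m.2 = (((lam.1 - lam.2).toNat : ℕ) : ℤ) + 2 * lam.2) := by
    rintro ⟨_, b, c⟩
    apply hne
    have e2 : lam.2 = m.2 := le_antisymm b hm
    have e1 : lam.1 = m.1 := by omega
    exact Prod.ext e1 e2
  have h2 : ¬ (lam.2 + 1 ≤ m.1 ∧ lam.2 + 1 ≤ m.2 ∧
      m.1 + m.2 = ((((lam.1 - lam.2).toNat - 2 : ℕ) : ℕ) : ℤ) + 2 * (lam.2 + 1)) := by
    rintro ⟨_, b, _⟩
    omega
  unfold satCoef681 Acoef263
  rw [if_neg h1, if_neg h2]
  simp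

/-- **The Satake transform is injective** on the dominant functions. -/
theorem satT_inj681 (D : ResData k) (A A' : (ℤ × ℤ) →₀ ℂ) (hA : IsDominant A)
    (hA' : IsDominant A')
    (h : ∀ x y : ℂ, x ≠ 0 → y ≠ 0 →
      (A.sum fun lam c => c * satake D.T.card lam x y)
        = A'.sum fun lam c => c * satake D.T.card lam x y) : A = A' := by
  set S : Finset (ℤ × ℤ) := A.support ∪ A'.support with hS
  set M : Finset (ℤ × ℤ) := S.biUnion satSupp681 with hM
  have hdom : ∀ lam ∈ S, lam.2 ≤ lam.1 := by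
    intro lam hlam
    rw [hS, Finset.mem_union] at hlam
    rcases hlam with hl | hl
    · exact hA lam hl
    · exact hA' lam hl
  set B : ℤ × ℤ → ℂ := fun m => ∑ lam ∈ S, (A lam - A' lam) * satCoef681 D lam m with hB
  have hBM : ∀ m, B m ≠ 0 → m ∈ M := by
    intro m hm
    rw [hB] at hm
    obtain ⟨lam, hlam, hne⟩ := Finset.exists_ne_zero_of_sum_ne_zero hm
    rw [hM, Finset.mem_biUnion]
    exact ⟨lam, hlam, satCoef_mem681 D lam m (right_ne_zero_of_mul hne)⟩
  have hBfin : (Function.support B).Finite := by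
    refine (Finset.finite_toSet M).subset ?_
    intro m hm
    exact Finset.mem_coe.2 (hBM m (Function.mem_support.1 hm))
  have hsumA : ∀ x y : ℂ, (A.sum fun lam c => c * satake D.T.card lam x y)
      = ∑ lam ∈ S, A lam * satake D.T.card lam x y := fun x y =>
    Finsupp.sum_of_support_subset A Finset.subset_union_left _ (fun _ _ => zero_mul _)
  have hsumA' : ∀ x y : ℂ, (A'.sum fun lam c => c * satake D.T.card lam x y)
      = ∑ lam ∈ S, A' lam * satake D.T.card lam x y := fun x y =>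
    Finsupp.sum_of_support_subset A' Finset.subset_union_right _ (fun _ _ => zero_mul _)
  have hzero : ∀ z₁ z₂ : ℂ, z₁ ≠ 0 → z₂ ≠ 0 →
      ∑ᶠ m : ℤ × ℤ, B m * z₁ ^ m.1 * z₂ ^ m.2 = 0 := by
    intro z₁ z₂ hz₁ hz₂
    have hz : z₁ * z₂ ≠ 0 := mul_ne_zero hz₁ hz₂
    have e1 : ∑ᶠ m : ℤ × ℤ, B m * z₁ ^ m.1 * z₂ ^ m.2
        = ∑ m ∈ M, B m * z₁ ^ m.1 * z₂ ^ m.2 := by
      refine finsum_eq_sum_of_support_subset _ ?_
      intro m hm
      rw [Function.mem_support] at hm
      rw [Finset.mem_coe]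
      apply hBM
      intro h0
      apply hm
      rw [h0, zero_mul, zero_mul]
    have e2 : ∀ lam ∈ S, laur263 (satCoef681 D lam) z₁ z₂
        = ∑ m ∈ M, satCoef681 D lam m * z₁ ^ m.1 * z₂ ^ m.2 := by
      intro lam hlam
      unfold laur263
      refine finsum_eq_sum_of_support_subset _ ?_
      intro m hm
      rw [Function.mem_support] at hm
      rw [Finset.mem_coe, hM, Finset.mem_biUnion]
      refine ⟨lam, hlam, satCoef_mem681 D lam m ?_⟩
      intro h0
      apply hm
      rw [h0, zero_mul, zero_mul]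
    have e3 : ∑ m ∈ M, B m * z₁ ^ m.1 * z₂ ^ m.2
        = ∑ lam ∈ S, (A lam - A' lam) * laur263 (satCoef681 D lam) z₁ z₂ := by
      rw [hB]
      simp only [Finset.sum_mul]
      rw [Finset.sum_comm]
      refine Finset.sum_congr rfl (fun lam hlam => ?_)
      rw [e2 lam hlam, Finset.mul_sum]
      refine Finset.sum_congr rfl (fun m _ => ?_)
      ring
    rw [e1, e3]
    have e4 : ∑ lam ∈ S, (A lam - A' lam) * laur263 (satCoef681 D lam) z₁ z₂
        = (∑ lam ∈ S, A lam * satake D.T.card lam z₁ z₂)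
          - ∑ lam ∈ S, A' lam * satake D.T.card lam z₁ z₂ := by
      rw [← Finset.sum_sub_distrib]
      refine Finset.sum_congr rfl (fun lam _ => ?_)
      rw [laur_satCoef681 D lam z₁ z₂ hz]
      ring
    rw [e4, ← hsumA, ← hsumA', h z₁ z₂ hz₁ hz₂, sub_self]
  have hB0 : ∀ m, B m = 0 := laurent2_zero681 B hBfin hzero
  by_contra hne
  have hex : ∃ lam, A lam ≠ A' lam := by
    by_contra hall
    apply hne
    ext lam
    by_contra hl
    exact hall ⟨lam, hl⟩
  obtain ⟨lam₁, hlam₁⟩ := hex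
  have hmemS : ∀ lam, A lam ≠ A' lam → lam ∈ S := by
    intro lam hl
    rw [hS, Finset.mem_union, Finsupp.mem_support_iff, Finsupp.mem_support_iff]
    by_contra hcon
    rw [not_or, not_not, not_not] at hcon
    apply hl
    rw [hcon.1, hcon.2]
  set S' : Finset (ℤ × ℤ) := S.filter (fun lam => A lam ≠ A' lam) with hS'
  have hne' : S'.Nonempty := ⟨lam₁, by
    rw [hS', Finset.mem_filter]
    exact ⟨hmemS lam₁ hlam₁, hlam₁⟩⟩
  obtain ⟨lam₀, hlam₀, hmin⟩ := Finset.exists_min_image S' (fun lam => lam.2) hne'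
  rw [hS', Finset.mem_filter] at hlam₀
  have hval := hB0 lam₀
  rw [hB] at hval
  simp only at hval
  rw [Finset.sum_eq_single lam₀] at hval
  · rw [satCoef_self681 D lam₀ (hdom lam₀ hlam₀.1)] at hval
    rcases mul_eq_zero.1 hval with h0 | h0
    · exact hlam₀.2 (sub_eq_zero.1 h0)
    · exact pow_ne_zero _ (sq_ne_zero263 D) h0
  · intro lam hlam hne0
    by_cases hl : A lam = A' lam
    · rw [hl, sub_self, zero_mul]
    · have hmem : lam ∈ S' := by
        rw [hS', Finset.mem_filter]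
        exact ⟨hlam, hl⟩
      rw [satCoef_zero681 D lam lam₀ (hdom lam hlam) (hmin lam hmem) hne0, mul_zero]
  · intro hcon
    exact absurd hlam₀.1 hcon

end Abstract

end Fermat.Agent.LT.T7.H681

end
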