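import Mathlib
import Fermat.Agent.LT.T7.H893.SupplyProdSpec
import Fermat.Agent.LT.T7.H311.EnumExists
import Fermat.Agent.LT.T7.H938.UnitMatch
import Fermat.Agent.LT.T7.H681.SatInj

/-!
# Row LT, tower T7, node T7.L2.1.H2b.3 `H893.SphHypC893` (helper681, SPARE), OFF-MAIN -- part 2:
# the node from the tower Prop of T6

No hole, nothing assumed.  ADDITIVE (new names only, suffix `681`, namespace
`Fermat.Agent.LT.T7.H681`).

    sphHyp_of681 (K K') : T6.T6Out → H893.SphHypC893 K K'        (VERBATIM)

Proof.  Places of `T₀`: the hypothesis.  `v ∈ T ∖ T₀`: the levels are `0` (`IsLevelAt305`), the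
components are spherical (`SphOut893`).
* `inv_up`, `inv_down`: the Cartan invariant is bi-`GL₂(𝒪)`-invariant; the explicit system of
  representatives `T3.H681.sphSys681`.
* `inert`: `e = 1` (`H938.e_eq_one938`), the residue fields (`H938.inert_data938`), the
  fundamental lemma `T6.FundLemmaC` for `T6.IsBC` (clause of `SphOut893`).
* `split`: the enumeration of helper311 (`H311.enumExistsC311`); it is injective on `[0, l)`
  (`sh_enum_inj681`), so the clause of `SphOut893` gives the Satake transform of the component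
  downstairs; the convolution product of the components upstairs is spherical with the same
  Satake transform (`T3.H681.split_sph681`), and the Satake transform is injective
  (`satT_inj681`).
-/

set_option autoImplicit false
set_option linter.unusedSectionVars false
set_option linter.unusedVariables false

open AutomorphicForm IsDedekindDomain NumberField MeasureTheory
open scoped ComplexConjugate

noncomputable section

namespace Fermat.Agent.LT.T7.H681

open Fermat.Agent.LT.H556 Fermat.Agent.LT.H556.A0 Fermat.Agent.LT.T7 Fermat.Agent.LT.T7.H305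
open Fermat.Agent.LT.T7.H893
open Fermat.Agent.LT

/-! ## 1. Local lemmas -/

section Local

variable {k k' : Type} [Field k] [Valued k T6.Γ₀] [Field k'] [Valued k' T6.Γ₀]

theorem sh_map_apply681 (i : k ≃+* k') (g : GL (Fin 2) k) (a b : Fin 2) :
    ((Matrix.GeneralLinearGroup.map (i : k →+* k') g : GL (Fin 2) k') :
        Matrix (Fin 2) (Fin 2) k') a b = i ((g : Matrix (Fin 2) (Fin 2) k) a b) := by
  simp

theorem sh_map_det681 (i : k ≃+* k') (g : GL (Fin 2) k) :
    ((Matrix.GeneralLinearGroup.map (i : k →+* k') g : GL (Fin 2) k') :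
        Matrix (Fin 2) (Fin 2) k').det = i ((g : Matrix (Fin 2) (Fin 2) k).det) := by
  rw [Matrix.det_fin_two, Matrix.det_fin_two, sh_map_apply681, sh_map_apply681, sh_map_apply681,
    sh_map_apply681, map_sub, map_mul, map_mul]

theorem sh_entryMax_map681 (i : k ≃+* k') (hi : ∀ x : k, Valued.v (i x) = Valued.v x)
    (g : GL (Fin 2) k) :
    T6.entryMax (Matrix.GeneralLinearGroup.map (i : k →+* k') g) = T6.entryMax g := by
  unfold T6.entryMax
  refine Finset.sup'_congr _ rfl (fun p _ => ?_)
  rw [sh_map_apply681, hi]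

/-- A valuation preserving isomorphism preserves the Cartan invariant. -/
theorem sh_cartan_map681 (i : k ≃+* k') (hi : ∀ x : k, Valued.v (i x) = Valued.v x)
    (g : GL (Fin 2) k) :
    T6.cartan (Matrix.GeneralLinearGroup.map (i : k →+* k') g) = T6.cartan g := by
  unfold T6.cartan
  rw [sh_entryMax_map681 i hi g, sh_map_det681, hi]

/-- A spherical function is bi-`GL₂(𝒪)`-invariant. -/
theorem sh_biInv681 (A : (ℤ × ℤ) →₀ ℂ) :
    T6.IsBiInv (T6.InU 0) (fun g : GL (Fin 2) k => A (T6.cartan g)) := by
  intro u u' g hu hu'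
  show A (T6.cartan (u * g * u')) = A (T6.cartan g)
  rw [T3.H681.cartan_mul_right681 _ _ ((T6.H305.inU_zero_iff _).1 hu'),
    T3.H681.cartan_mul_left681 _ _ ((T6.H305.inU_zero_iff _).1 hu)]

/-- A spherical function has finite support modulo `GL₂(𝒪)`. -/
theorem sh_finSupp681 (D : T6.H305.ResData k) (A : (ℤ × ℤ) →₀ ℂ) (hA : T6.IsDominant A) :
    T6.HasFinSupp (T6.InU 0) (fun g : GL (Fin 2) k => A (T6.cartan g)) := by
  obtain ⟨_, hcov⟩ := T3.H681.sph_rep681 D A hA
  refine ⟨T3.H681.sphSys681 D A, fun g hg => ?_⟩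
  obtain ⟨h, hh, hK⟩ := hcov g hg
  exact ⟨h, hh, h⁻¹ * g, (T6.H305.inU_zero_iff _).2 hK, by group⟩

end Local

/-! ## 2. The enumeration is injective -/

/-- A sequence with `R (w (j+1)) (w j)` for a right-unique relation `R` and `w j ≠ w 0` for
`0 < j < l` is injective on `[0, l)`. -/
theorem sh_enum_inj681 {X : Type} (R : X → X → Prop)
    (hR : ∀ a b b' : X, R a b → R a b' → b = b') (l : ℕ) (w : ℕ → X)
    (hrel : ∀ j : ℕ, R (w (j + 1)) (w j)) (hne : ∀ j : ℕ, 0 < j → j < l → w j ≠ w 0) :
    ∀ j j' : ℕ, j < l → j' < l → w j = w j' → j = j' := by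
  have key : ∀ d j : ℕ, w j = w (j + d) → w 0 = w d := by
    intro d j
    induction j with
    | zero =>
      intro h
      rw [Nat.zero_add] at h
      exact h
    | succ j ih =>
      intro h
      apply ih
      have h1 := hrel j
      have h2 := hrel (j + d)
      have e : j + 1 + d = j + d + 1 := by omega
      rw [e] at h
      rw [h] at h1
      exact hR _ _ _ h1 h2
  intro j j' hj hj' hww
  by_contra hjj
  rcases Nat.lt_or_gt_of_ne hjj with hlt | hlt
  · have h1 : w j = w (j + (j' - j)) := by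
      rw [Nat.add_sub_cancel' hlt.le]
      exact hww
    exact hne (j' - j) (by omega) (by omega) (key (j' - j) j h1).symm
  · have h1 : w j' = w (j' + (j - j')) := by
      rw [Nat.add_sub_cancel' hlt.le]
      exact hww.symm
    exact hne (j - j') (by omega) (by omega) (key (j - j') j' h1).symm

/-! ## 3. The node -/

variable (K K' : Type) [Field K] [NumberField K] [Field K'] [NumberField K'] [Algebra K K']

/-- **NODE T7.L2.1.H2b.3 = SPH-HYP** from the tower Prop of T6 (VERBATIM
`H893.SphHypC893`). -/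
theorem sphHyp_of681 (hT6 : T6.T6Out) : H893.SphHypC893 K K' := by
  intro D hD hc _ _ μc _ T₀ hun n m hlev T hT₀T φ₀ Φ f₀ F hyp hsph
  have hT6' := hT6
  obtain ⟨_, _, _, _, _, hIL, hIE, _, _, _, _, _, _, hFL, _⟩ := hT6
  classical
  have hm0 : ∀ v, v ∉ T₀ → m v = 0 := fun v hv => hlev.1 v hv
  have hn0 : ∀ v, v ∉ T₀ → ∀ w, PlaceOver K K' v w → n w = 0 := fun v hv w hvw =>
    hlev.2 v w hv hvw
  refine { inv_up := ?_, inv_down := ?_, arch_up := hyp.arch_up, arch_down := hyp.arch_down,
           inert := ?_, split := ?_, arch := hyp.arch }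
  · -- inv_up
    intro v hv w hvw
    by_cases hv0 : v ∈ T₀
    · exact hyp.inv_up v hv0 w hvw
    · obtain ⟨A, Av, hfv, hφw, -, -⟩ := hsph v hv hv0
      obtain ⟨Dw, -⟩ := T6.H305.exists_resData (hIL K' w)
      have e : φ₀ w = fun g => A w (T6.cartan g) := funext (hφw w hvw).2
      rw [hn0 v hv0 w hvw, e]
      exact ⟨sh_biInv681 _, sh_finSupp681 Dw _ (hφw w hvw).1⟩
  · -- inv_down
    intro v hv
    by_cases hv0 : v ∈ T₀
    · exact hyp.inv_down v hv0
    · obtain ⟨A, Av, hfv, -, -, -⟩ := hsph v hv hv0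
      obtain ⟨Dv, -⟩ := T6.H305.exists_resData (hIL K v)
      have e : f₀ v = fun g => Av (T6.cartan g) := funext hfv.2
      rw [hm0 v hv0, e]
      exact ⟨sh_biInv681 _, sh_finSupp681 Dv _ hfv.1⟩
  · -- inert
    intro v hv w hvw huniq e i sw hi hsw hext
    by_cases hv0 : v ∈ T₀
    · exact hyp.inert v hv0 w hvw huniq e i sw hi hsw hext
    · obtain ⟨A, Av, hfv, hφw, hbc, -⟩ := hsph v hv hv0
      have hunr := hun v hv0 w hvw
      have he : e = 1 := H938.e_eq_one938 hunr e hext.e_pos i hi hext.val_i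
      subst he
      obtain ⟨hk, hk'⟩ := H938.inert_data938 hIL hIE D.l hc hvw huniq hunr
      have e1 : φ₀ w = fun g => A w (T6.cartan g) := funext (hφw w hvw).2
      have e2 : f₀ v = fun g => Av (T6.cartan g) := funext hfv.2
      rw [hn0 v hv0 w hvw, hm0 v hv0, e1, e2]
      exact ⟨fun δ γ c c' hreg hconj hc1 hc2 =>
          hFL.1 _ _ _ D.l i sw hk hk' hext hc.prime _ _ (hφw w hvw).1 hfv.1
            (hbc w hvw huniq) δ γ c c' hreg trivial hconj hc1 hc2,
        fun γ c' hreg hnn hc2 =>
          hFL.2 _ _ _ D.l i sw hk hk' hext hc.prime _ _ (hφw w hvw).1 hfv.1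
            (hbc w hvw huniq) γ c' hreg hnn hc2⟩
  · -- split
    intro v hv hsp
    by_cases hv0 : v ∈ T₀
    · exact hyp.split v hv0 hsp
    · obtain ⟨A, Av, hfv, hφw, -, hsplit⟩ := hsph v hv hv0
      obtain ⟨w, i, hover, hrel, hne, hi1, hi2⟩ :=
        H311.enumExistsC311 K K' hT6' D hD hc T₀ hun v hv0 hsp
      refine ⟨w, i, hover, hrel, hne, hi1, hi2,
        fun j => by rw [hn0 v hv0 (w j) (hover j), hm0 v hv0], ?_⟩
      have hinj : ∀ j j' : ℕ, j < D.l → j' < D.l → w j = w j' → j = j' :=
        sh_enum_inj681 (fun a b : HeightOneSpectrum (𝓞 K') => T5.PlaceRel D.s a b)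
          (fun a b b' h1 h2 => HeightOneSpectrum.ext (h1.trans h2.symm)) D.l w hrel hne
      have hsat := hsplit w hover hinj
      obtain ⟨Dv, hDv⟩ := T6.H305.exists_resData (hIL K v)
      obtain ⟨Av', hAv', hprod, hsat', -⟩ := T3.H681.split_sph681 v D.l hc.prime.pos
        (fun j => A (w j)) (fun j _ => (hφw (w j) (hover j)).1)
      have hAvEq : Av = Av' := by
        apply satT_inj681 Dv Av Av' hfv.1 hAv'
        intro x y hx hy
        rw [hDv, hsat' x y hx hy]
        exact hsat x y hx hy
      have e1 : (fun (j : ℕ) (g : GL (Fin 2) (v.adicCompletion K)) =>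
          φ₀ (w j) (Matrix.GeneralLinearGroup.map
            ((i j : v.adicCompletion K ≃+* _) :
              v.adicCompletion K →+* (w j).adicCompletion K') g))
          = fun j g => A (w j) (T6.cartan g) := by
        funext j g
        rw [(hφw (w j) (hover j)).2, sh_cartan_map681 (i j) (hi2 j) g]
      have e2 : f₀ v = fun g => Av' (T6.cartan g) := by
        funext g
        rw [hfv.2 g, hAvEq]
      rw [hm0 v hv0, e1, e2]
      exact hprod

example (hT6 : T6.T6Out) : H893.SphHypC893 K K' := sphHyp_of681 K K' hT6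

end Fermat.Agent.LT.T7.H681

end
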