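import Mathlib
import Fermat.Agent.LT.T7.H893.SupplyProdSpec
import Fermat.Agent.LT.T7.H311.EnumExists
import Fermat.Agent.LT.T7.H938.UnitMatch
import Fermat.Agent.LT.T7.H681.SphHyp

/-!
# Row LT, tower T7, node `ProdMtCb` (helper681, ASSET), OFF-MAIN:
# the spherical shape `H893.SphOut893` is stable under convolution products

No hole, nothing assumed.  ADDITIVE (new names only, suffix `681`, namespace
`Fermat.Agent.LT.T7.H681`).

* `SphAt681 l v φv fv` : the body of `H893.SphOut893` at ONE place `v` (spherical components,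
  base change at an inert place, product formula at a split place);
* `sphAt_unit681` : the unit components have the shape;
* `sc_conv_sph681` : the convolution of two spherical functions is spherical, its Satake
  transform is the product;
* `sphAt_conv681` : the convolution products of two families with the shape have the shape
  (unramified place; `T6.InstExtC` for `N w = N v ^ l` at an inert place);
* `sph_inert_at681`, `sph_split_at681` : the clauses `inert`, `split` of `H893.LocHyp893` at a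
  place with the shape (fundamental lemma; enumeration + injectivity of the Satake transform).
-/

set_option autoImplicit false
set_option linter.unusedSectionVars false
set_option linter.unusedVariables false

open AutomorphicForm IsDedekindDomain NumberField MeasureTheory
open scoped ComplexConjugate

noncomputable section

namespace Fermat.Agent.LT.T7.H681

open Fermat.Agent.LT.H556 Fermat.Agent.LT.H556.A0 Fermat.Agent.LT.T7 Fermat.Agent.LT.T7.H305
open Fermat.Agent.LT.T7.H893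
open Fermat.Agent.LT

/-! ## 1. The unit -/

section Local

variable {k : Type} [Field k] [Valued k T6.Γ₀]

/-- The unit is spherical. -/
theorem sc_unit_sph681 : IsSphFn893 (unitFn893 (k := k) 0) H159.unitFn159 := by
  classical
  refine ⟨H159.isDominant_unitFn159, fun x => ?_⟩
  rw [H159.unitFn_apply159]
  unfold unitFn893
  congr

/-- The Satake transform of the unit is `1`. -/
theorem sc_satT_unit681 (q : ℕ) (x y : ℂ) : satT893 q H159.unitFn159 x y = 1 := by
  unfold satT893 H159.unitFn159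
  rw [Finsupp.sum_single_index (by rw [zero_mul])]
  unfold T6.satake
  simp [T6.H305.satPoly_zero]

end Local

/-! ## 2. Convolution of spherical functions at a place of a number field -/

section Place

variable {F : Type} [Field F] [NumberField F]

/-- The convolution of two spherical functions is spherical and its Satake transform is the
product. -/
theorem sc_conv_sph681 (hIL : T6.InstLocalC) (v : HeightOneSpectrum (𝓞 F))
    (A₁ A₂ : (ℤ × ℤ) →₀ ℂ)
    (φ ψ χ : GL (Fin 2) (v.adicCompletion F) → ℂ) (hφ : IsSphFn893 φ A₁)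
    (hψ : IsSphFn893 ψ A₂) (hconv : T6.IsConv (T6.InU 0) φ ψ χ) :
    ∃ A : (ℤ × ℤ) →₀ ℂ, IsSphFn893 χ A ∧ ∀ x y : ℂ, x ≠ 0 → y ≠ 0 →
      satT893 (Ideal.absNorm v.asIdeal) A x y
        = satT893 (Ideal.absNorm v.asIdeal) A₁ x y
          * satT893 (Ideal.absNorm v.asIdeal) A₂ x y := by
  classical
  have e1 : φ = fun g => A₁ (T6.cartan g) := funext hφ.2
  have e2 : ψ = fun g => A₂ (T6.cartan g) := funext hψ.2
  obtain ⟨D, hD⟩ := T6.H305.exists_resData (hIL F v)
  obtain ⟨Av, hAv, hprod, hsat, -⟩ := T3.H681.split_sph681 v 2 (by norm_num)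
    (fun j => if j = 0 then A₁ else A₂) (fun j _ => by
      by_cases hj : j = 0
      · simp only [hj, if_true]
        exact hφ.1
      · simp only [hj, if_false]
        exact hψ.1)
  obtain ⟨χ', h0, hstep, hf⟩ := hprod
  have hc' := hstep 0 (by norm_num)
  rw [h0] at hc'
  simp only [if_true, Nat.zero_add, one_ne_zero, if_false] at hc'
  have hf' : (fun g : GL (Fin 2) (v.adicCompletion F) => Av (T6.cartan g)) = χ' 1 := hf
  rw [← hf'] at hc'
  -- uniqueness of the convolution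
  have hχ : χ = fun g => Av (T6.cartan g) := by
    funext g
    rw [e1, e2] at hconv
    rw [T3.H681.conv_eq_sum681 (T3.H681.sph_rinv681 A₁) (T3.H681.sph_linv681 A₂) hconv _
        (T3.H681.sph_rep681 D A₁ hφ.1) g,
      T3.H681.conv_eq_sum681 (T3.H681.sph_rinv681 A₁) (T3.H681.sph_linv681 A₂) hc' _
        (T3.H681.sph_rep681 D A₁ hφ.1) g]
  refine ⟨Av, ⟨hAv, fun x => congrFun hχ x⟩, fun x y hx hy => ?_⟩
  have := hsat x y hx hy
  rw [Finset.prod_range_succ, Finset.prod_range_one] at this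
  simp only [if_true, one_ne_zero, if_false] at this
  exact this

end Place

/-! ## 3. The shape at one place -/

section Shape

variable {K K' : Type} [Field K] [NumberField K] [Field K'] [NumberField K'] [Algebra K K']

/-- The body of `H893.SphOut893` at the place `v`. -/
def SphAt681 (l : ℕ) (v : HeightOneSpectrum (𝓞 K))
    (φv : ∀ w : HeightOneSpectrum (𝓞 K'), GL (Fin 2) (w.adicCompletion K') → ℂ)
    (fv : GL (Fin 2) (v.adicCompletion K) → ℂ) : Prop :=
  ∃ (A : HeightOneSpectrum (𝓞 K') → (ℤ × ℤ) →₀ ℂ) (Av : (ℤ × ℤ) →₀ ℂ),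
    IsSphFn893 fv Av ∧
    (∀ w : HeightOneSpectrum (𝓞 K'), PlaceOver K K' v w → IsSphFn893 (φv w) (A w)) ∧
    (∀ w : HeightOneSpectrum (𝓞 K'), PlaceOver K K' v w →
      (∀ w' : HeightOneSpectrum (𝓞 K'), PlaceOver K K' v w' → w' = w) →
      T6.IsBC l (Ideal.absNorm v.asIdeal) (A w) Av) ∧
    ∀ w : ℕ → HeightOneSpectrum (𝓞 K'), (∀ j : ℕ, PlaceOver K K' v (w j)) →
      (∀ j j' : ℕ, j < l → j' < l → w j = w j' → j = j') →
      ∀ x y : ℂ, x ≠ 0 → y ≠ 0 →
        satT893 (Ideal.absNorm v.asIdeal) Av x y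
          = ∏ j ∈ Finset.range l, satT893 (Ideal.absNorm v.asIdeal) (A (w j)) x y

theorem eqns_realised_sphProd681 : True := by
  have _h0 := @SphAt681.eq_1
  have _g0 := @SphAt681.eq_def
  trivial

/-- `H893.SphOut893` is the shape at every place of `T ∖ T₀`. -/
theorem sphOut_iff681 (l : ℕ) (T₀ T : Finset (HeightOneSpectrum (𝓞 K)))
    (φ₀ : ∀ w : HeightOneSpectrum (𝓞 K'), GL (Fin 2) (w.adicCompletion K') → ℂ)
    (f₀ : ∀ v : HeightOneSpectrum (𝓞 K), GL (Fin 2) (v.adicCompletion K) → ℂ) :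
    SphOut893 l T₀ T φ₀ f₀ ↔ ∀ v ∈ T, v ∉ T₀ → SphAt681 l v φ₀ (f₀ v) :=
  Iff.rfl

/-- The unit components have the shape. -/
theorem sphAt_unit681 (l : ℕ) (v : HeightOneSpectrum (𝓞 K)) :
    SphAt681 (K' := K') l v (fun _ => unitFn893 0) (unitFn893 0) := by
  refine ⟨fun _ => H159.unitFn159, H159.unitFn159, sc_unit_sph681, fun _ _ => sc_unit_sph681,
    fun _ _ _ => H159.isBC_unitFn159 _ _, fun w _ _ x y _ _ => ?_⟩
  rw [sc_satT_unit681]
  simp only [sc_satT_unit681, Finset.prod_const_one]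

/-- `N w = N v ^ l` at an unramified place with one place over it. -/
theorem absNorm_inert681 (hIE : T6.InstExtC) (l : ℕ) (hc : IsCycExt K K' l)
    {v : HeightOneSpectrum (𝓞 K)} {w : HeightOneSpectrum (𝓞 K')} (hvw : PlaceOver K K' v w)
    (huniq : ∀ w' : HeightOneSpectrum (𝓞 K'), PlaceOver K K' v w' → w' = w)
    (hun : ∃ x : 𝓞 K, x ∈ v.asIdeal ∧ algebraMap (𝓞 K) (𝓞 K') x ∉ w.asIdeal ^ 2) :
    Ideal.absNorm w.asIdeal = Ideal.absNorm v.asIdeal ^ l := by
  obtain ⟨s, hs⟩ := H938.exists_gen938 l hc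
  have hg := hc.galois
  have hprime : (Module.finrank K K').Prime := by rw [hc.degree]; exact hc.prime
  obtain ⟨e', i', sw', hi', -, hext', hN⟩ := hIE K K' s hs hprime v w
    (H938.placeOver_mem938 hvw) (fun w' hw' => huniq w' (H938.placeOver_of_le938 hw'))
  have he' : e' = 1 := H938.e_eq_one938 hun e' hext'.e_pos i' hi' hext'.val_i
  rw [he', Nat.div_one, hc.degree] at hN
  exact hN

/-- **The shape is stable under convolution products** (unramified place). -/
theorem sphAt_conv681 (hT6 : T6.T6Out) (l : ℕ) (hc : IsCycExt K K' l)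
    (v : HeightOneSpectrum (𝓞 K))
    (hun : ∀ w : HeightOneSpectrum (𝓞 K'), PlaceOver K K' v w →
      ∃ x : 𝓞 K, x ∈ v.asIdeal ∧ algebraMap (𝓞 K) (𝓞 K') x ∉ w.asIdeal ^ 2)
    (φ₁ φ₂ φ₀ : ∀ w : HeightOneSpectrum (𝓞 K'), GL (Fin 2) (w.adicCompletion K') → ℂ)
    (f₁ f₂ f₀ : GL (Fin 2) (v.adicCompletion K) → ℂ)
    (h₁ : SphAt681 l v φ₁ f₁) (h₂ : SphAt681 l v φ₂ f₂)
    (hconv : T6.IsConv (T6.InU 0) f₁ f₂ f₀)
    (hconv' : ∀ w : HeightOneSpectrum (𝓞 K'), PlaceOver K K' v w →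
      T6.IsConv (T6.InU 0) (φ₁ w) (φ₂ w) (φ₀ w)) :
    SphAt681 l v φ₀ f₀ := by
  classical
  have hIL : T6.InstLocalC := hT6.2.2.2.2.2.1
  have hIE : T6.InstExtC := hT6.2.2.2.2.2.2.1
  obtain ⟨A₁, Av₁, hf₁, hφ₁, hbc₁, hsp₁⟩ := h₁
  obtain ⟨A₂, Av₂, hf₂, hφ₂, hbc₂, hsp₂⟩ := h₂
  obtain ⟨Av, hAv, hAvS⟩ := sc_conv_sph681 hIL v Av₁ Av₂ f₁ f₂ f₀ hf₁ hf₂ hconv
  have hex : ∀ w : HeightOneSpectrum (𝓞 K'), ∃ A : (ℤ × ℤ) →₀ ℂ, PlaceOver K K' v w →
      (IsSphFn893 (φ₀ w) A ∧ ∀ x y : ℂ, x ≠ 0 → y ≠ 0 →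
        satT893 (Ideal.absNorm w.asIdeal) A x y
          = satT893 (Ideal.absNorm w.asIdeal) (A₁ w) x y
            * satT893 (Ideal.absNorm w.asIdeal) (A₂ w) x y) := by
    intro w
    by_cases hvw : PlaceOver K K' v w
    · obtain ⟨A, hA, hAS⟩ := sc_conv_sph681 hIL w (A₁ w) (A₂ w) (φ₁ w) (φ₂ w) (φ₀ w)
        (hφ₁ w hvw) (hφ₂ w hvw) (hconv' w hvw)
      exact ⟨A, fun _ => ⟨hA, hAS⟩⟩
    · exact ⟨0, fun h => absurd h hvw⟩
  choose A hA using hex
  refine ⟨A, Av, hAv, fun w hvw => (hA w hvw).1, ?_, ?_⟩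
  · -- base change
    intro w hvw huniq x y hx hy
    have hN := absNorm_inert681 hIE l hc hvw huniq (hun w hvw)
    have hx' : x ^ l ≠ 0 := pow_ne_zero _ hx
    have hy' : y ^ l ≠ 0 := pow_ne_zero _ hy
    have h1 := hbc₁ w hvw huniq x y hx hy
    have h2 := hbc₂ w hvw huniq x y hx hy
    have h3 := (hA w hvw).2 (x ^ l) (y ^ l) hx' hy'
    have h4 := hAvS x y hx hy
    unfold satT893 at h3 h4
    rw [hN] at h3
    rw [h4, h1, h2, h3]
  · -- split
    intro w hover hinj x y hx hy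
    have hl2 : 2 ≤ l := hc.prime.two_le
    have hne : w 0 ≠ w 1 := by
      intro h
      have := hinj 0 1 (by omega) (by omega) h
      omega
    have hN : ∀ j : ℕ, Ideal.absNorm (w j).asIdeal = Ideal.absNorm v.asIdeal := fun j =>
      H311.absNorm_split311 hc ⟨w 0, w 1, hover 0, hover 1, hne⟩ (hover j)
    rw [hAvS x y hx hy, hsp₁ w hover hinj x y hx hy, hsp₂ w hover hinj x y hx hy,
      ← Finset.prod_mul_distrib]
    refine Finset.prod_congr rfl (fun j _ => ?_)
    have h3 := (hA (w j) (hover j)).2 x y hx hy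
    rw [hN j] at h3
    exact h3.symm

/-! ## 4. The clauses of `LocHyp893` at a place with the shape -/

/-- The clause `inert` at an unramified place of level `0` with the shape. -/
theorem sph_inert_at681 (hT6 : T6.T6Out) (D : CompData K K') (hc : IsCycExt K K' D.l)
    (n : HeightOneSpectrum (𝓞 K') → ℕ) (m : HeightOneSpectrum (𝓞 K) → ℕ)
    (φ₀ : ∀ w : HeightOneSpectrum (𝓞 K'), GL (Fin 2) (w.adicCompletion K') → ℂ)
    (f₀ : ∀ v : HeightOneSpectrum (𝓞 K), GL (Fin 2) (v.adicCompletion K) → ℂ)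
    (v : HeightOneSpectrum (𝓞 K))
    (hun : ∀ w : HeightOneSpectrum (𝓞 K'), PlaceOver K K' v w →
      ∃ x : 𝓞 K, x ∈ v.asIdeal ∧ algebraMap (𝓞 K) (𝓞 K') x ∉ w.asIdeal ^ 2)
    (hm0 : m v = 0) (hn0 : ∀ w : HeightOneSpectrum (𝓞 K'), PlaceOver K K' v w → n w = 0)
    (hsph : SphAt681 D.l v φ₀ (f₀ v)) :
    ∀ w : HeightOneSpectrum (𝓞 K'), PlaceOver K K' v w →
    (∀ w' : HeightOneSpectrum (𝓞 K'), PlaceOver K K' v w' → w' = w) →
    ∀ (e : ℕ) (i : v.adicCompletion K →+* w.adicCompletion K')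
      (sw : w.adicCompletion K' ≃+* w.adicCompletion K'),
      (∀ x : K, i (algebraMap K (v.adicCompletion K) x)
        = algebraMap K' (w.adicCompletion K') (algebraMap K K' x)) →
      (∀ y : K', sw (algebraMap K' (w.adicCompletion K') y)
        = algebraMap K' (w.adicCompletion K') (D.s.σ y)) →
      T6.IsLocalExt (v.adicCompletion K) (w.adicCompletion K') D.l e i sw →
      (∀ (δ : GL (Fin 2) (w.adicCompletion K')) (γ : GL (Fin 2) (v.adicCompletion K))
          (c c' : ℂ), T6.IsReg γ →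
          IsConj (T6.twNorm sw D.l δ) (Matrix.GeneralLinearGroup.map i γ) →
          T6.IsTwOrbSum sw (n w) (φ₀ w) δ c → T6.IsOrbSum (m v) (f₀ v) γ c' → c = c') ∧
        ∀ (γ : GL (Fin 2) (v.adicCompletion K)) (c' : ℂ), T6.IsReg γ →
          ¬ T6.IsNormFrom D.l i sw γ → T6.IsOrbSum (m v) (f₀ v) γ c' → c' = 0 := by
  obtain ⟨_, _, _, _, _, hIL, hIE, _, _, _, _, _, _, hFL, _⟩ := hT6
  intro w hvw huniq e i sw hi hsw hext
  obtain ⟨A, Av, hfv, hφw, hbc, -⟩ := hsph
  have hunr := hun w hvw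
  have he : e = 1 := H938.e_eq_one938 hunr e hext.e_pos i hi hext.val_i
  subst he
  obtain ⟨hk, hk'⟩ := H938.inert_data938 hIL hIE D.l hc hvw huniq hunr
  have e1 : φ₀ w = fun g => A w (T6.cartan g) := funext (hφw w hvw).2
  have e2 : f₀ v = fun g => Av (T6.cartan g) := funext hfv.2
  rw [hn0 w hvw, hm0, e1, e2]
  exact ⟨fun δ γ c c' hreg hconj hc1 hc2 =>
      hFL.1 _ _ _ D.l i sw hk hk' hext hc.prime _ _ (hφw w hvw).1 hfv.1
        (hbc w hvw huniq) δ γ c c' hreg trivial hconj hc1 hc2,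
    fun γ c' hreg hnn hc2 =>
      hFL.2 _ _ _ D.l i sw hk hk' hext hc.prime _ _ (hφw w hvw).1 hfv.1
        (hbc w hvw huniq) γ c' hreg hnn hc2⟩

/-- The clause `split` at an unramified place of level `0` with the shape. -/
theorem sph_split_at681 (hT6 : T6.T6Out) (D : CompData K K') (hD : IsCompData D)
    (hc : IsCycExt K K' D.l) (T₀ : Finset (HeightOneSpectrum (𝓞 K)))
    (hun : UnramOut305 (K' := K') T₀)
    (n : HeightOneSpectrum (𝓞 K') → ℕ) (m : HeightOneSpectrum (𝓞 K) → ℕ)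
    (φ₀ : ∀ w : HeightOneSpectrum (𝓞 K'), GL (Fin 2) (w.adicCompletion K') → ℂ)
    (f₀ : ∀ v : HeightOneSpectrum (𝓞 K), GL (Fin 2) (v.adicCompletion K) → ℂ)
    (v : HeightOneSpectrum (𝓞 K)) (hv0 : v ∉ T₀)
    (hm0 : m v = 0) (hn0 : ∀ w : HeightOneSpectrum (𝓞 K'), PlaceOver K K' v w → n w = 0)
    (hsph : SphAt681 D.l v φ₀ (f₀ v)) :
    (∃ w₁ w₂ : HeightOneSpectrum (𝓞 K'),
      PlaceOver K K' v w₁ ∧ PlaceOver K K' v w₂ ∧ w₁ ≠ w₂) →
    ∃ (w : ℕ → HeightOneSpectrum (𝓞 K'))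
      (i : ∀ j : ℕ, v.adicCompletion K ≃+* (w j).adicCompletion K'),
      (∀ j : ℕ, PlaceOver K K' v (w j)) ∧ (∀ j : ℕ, T5.PlaceRel D.s (w (j + 1)) (w j)) ∧
      (∀ j : ℕ, 0 < j → j < D.l → w j ≠ w 0) ∧
      (∀ (j : ℕ) (x : K), i j (algebraMap K (v.adicCompletion K) x)
        = algebraMap K' ((w j).adicCompletion K') (algebraMap K K' x)) ∧
      (∀ (j : ℕ) (x : v.adicCompletion K), Valued.v (i j x) = Valued.v x) ∧
      (∀ j : ℕ, n (w j) = m v) ∧
        T6.IsConvProd (T6.InU (m v)) D.l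
          (fun j g => φ₀ (w j)
            (Matrix.GeneralLinearGroup.map ((i j : v.adicCompletion K ≃+* _) :
              v.adicCompletion K →+* (w j).adicCompletion K') g))
          (f₀ v) := by
  have hIL : T6.InstLocalC := hT6.2.2.2.2.2.1
  intro hsp
  obtain ⟨A, Av, hfv, hφw, -, hsplit⟩ := hsph
  obtain ⟨w, i, hover, hrel, hne, hi1, hi2⟩ :=
    H311.enumExistsC311 K K' hT6 D hD hc T₀ hun v hv0 hsp
  refine ⟨w, i, hover, hrel, hne, hi1, hi2,
    fun j => by rw [hn0 (w j) (hover j), hm0], ?_⟩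
  have hinj : ∀ j j' : ℕ, j < D.l → j' < D.l → w j = w j' → j = j' :=
    sh_enum_inj681 (fun a b : HeightOneSpectrum (𝓞 K') => T5.PlaceRel D.s a b)
      (fun a b b' h1 h2 => HeightOneSpectrum.ext (h1.trans h2.symm)) D.l w hrel hne
  have hsat := hsplit w hover hinj
  obtain ⟨Dv, hDv⟩ := T6.H305.exists_resData (hIL K v)
  obtain ⟨Av', hAv', hprod, hsat', -⟩ := T3.H681.split_sph681 v D.l hc.prime.pos
    (fun j => A (w j)) (fun j _ => (hφw (w j) (hover j)).1)
  have hAvEq : Av = Av' := by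
    apply satT_inj681 Dv Av Av' hfv.1 hAv'
    intro x y hx hy
    rw [hDv, hsat' x y hx hy]
    exact hsat x y hx hy
  have e1 : (fun (j : ℕ) (g : GL (Fin 2) (v.adicCompletion K)) =>
      φ₀ (w j) (Matrix.GeneralLinearGroup.map
        ((i j : v.adicCompletion K ≃+* _) :
          v.adicCompletion K →+* (w j).adicCompletion K') g))
      = fun j g => A (w j) (T6.cartan g) := by
    funext j g
    rw [(hφw (w j) (hover j)).2, sh_cartan_map681 (i j) (hi2 j) g]
  have e2 : f₀ v = fun g => Av' (T6.cartan g) := by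
    funext g
    rw [hfv.2 g, hAvEq]
  rw [hm0, e1, e2]
  exact hprod

end Shape

end Fermat.Agent.LT.T7.H681

end
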