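import Mathlib
import Fermat.Agent.LT.T7.P51.ProdMtSpec
import Fermat.Agent.LT.T7.H165.LevelAt
import Fermat.Agent.LT.T7.H681.SphProd

/-!
# Row LT, tower T7, node `ProdMtCb`, cut of record P51 (helper51): the leaves
# P.L4 `InertSphC51` (row 2830) and P.L6 `SplitSphC51` (row 2832) -- helper681, SPARE, OFF-MAIN

No hole, nothing assumed.  ADDITIVE (new names only, suffix `681`, namespace
`Fermat.Agent.LT.T7.H681`).

    inertSphC_of681 (K K') : T6.T6Out → P51.InertSphC51 K K'      (VERBATIM)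
    splitSphC_of681 (K K') : T6.T6Out → P51.SplitSphC51 K K'      (VERBATIM)
    sphOut_locProd681      : the products of shape `LocProd51` have the shape `SphOut893`

Proof.  At a place `v ∈ T ∖ T₀` the two factors have the shape `SphAt681` (clause `SphOut893`
of `LocA893`, `LocB893b`, or unit components), the place is unramified (`H165.unramC165`) and
the levels are `0` (`H165.levelAtC165`); the products have the shape (`sphAt_conv681`), and the
clauses follow (`sph_inert_at681`, `sph_split_at681`).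
-/

set_option autoImplicit false
set_option linter.unusedSectionVars false
set_option linter.unusedVariables false

open AutomorphicForm IsDedekindDomain NumberField MeasureTheory
open scoped ComplexConjugate

noncomputable section

namespace Fermat.Agent.LT.T7.H681

open Fermat.Agent.LT.H556 Fermat.Agent.LT.H556.A0 Fermat.Agent.LT.T7 Fermat.Agent.LT.T7.H305
open Fermat.Agent.LT.T7.H893
open Fermat.Agent.LT

section Leaves

variable (K K' : Type) [Field K] [NumberField K] [Field K'] [NumberField K'] [Algebra K K']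

/-- The data of the comparison of a common part with the properties. -/
theorem isCompData_comp681 {ℓ : ℕ} {Φ : HeckeEigensystem K' ℂ} {B : L2Base K K'}
    (hB : IsL2Base ℓ Φ B) (𝔫 : Ideal (𝓞 K)) (h𝔫 : 𝔫 ≠ ⊥) : IsCompData (B.comp 𝔫) :=
  { cyc := hB.cyc
    base := hB.base
    level_ne := h𝔫
    level := rfl
    frame := hB.frame
    frame' := hB.frame'
    aut := hB.aut 𝔫 }

/-- **The products of shape `LocProd51` have the spherical shape at the places outside the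
level**, with the bookkeeping of the context. -/
theorem sphAt_locProd681 (hT6 : T6.T6Out) (ℓ : ℕ) (Φ : HeckeEigensystem K' ℂ) (B : L2Base K K')
    (g : G K') (𝔫 : Ideal (𝓞 K)) (μc : @Measure (GL (Fin 2) ℂ) (borel _))
    (T₀ : Finset (HeightOneSpectrum (𝓞 K)))
    (n n₀ : HeightOneSpectrum (𝓞 K') → ℕ) (m : HeightOneSpectrum (𝓞 K) → ℕ)
    (H' : Finset (G K')) (z' : G K') (H : Finset (G K)) (z : G K) (t : ℂ) (k : ℤ) (j : ℕ)
    (T : Finset (HeightOneSpectrum (𝓞 K)))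
    (φ₀ : ∀ w : HeightOneSpectrum (𝓞 K'), GL (Fin 2) (w.adicCompletion K') → ℂ)
    (Φ' : InfinitePlace K' → GL (Fin 2) ℂ → ℂ)
    (f₀ : ∀ v : HeightOneSpectrum (𝓞 K), GL (Fin 2) (v.adicCompletion K) → ℂ)
    (F : InfinitePlace K → GL (Fin 2) ℂ → ℂ)
    (h : P51.IsLoc51 K K' ℓ Φ B g 𝔫 μc T₀ n n₀ m H' z' H z t k j T φ₀ Φ' f₀ F) :
    IsCycExt K K' B.l ∧ IsCompData (B.comp 𝔫) ∧ UnramOut305 (K' := K') T₀ ∧
      IsLevelAt305 T₀ n m ∧ ∀ v ∈ T, v ∉ T₀ → SphAt681 B.l v φ₀ (f₀ v) := by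
  obtain ⟨hctx, hsys, -, hprod⟩ := h
  have hc : IsCycExt K K' B.l := by
    rw [hctx.base.deg]
    exact hctx.cyc
  have hun : UnramOut305 (K' := K') T₀ :=
    H165.unramC165 K K' B 𝔫 T₀ hctx.ram hsys.mem_S'_g hctx.mem_T₀
  have hlev : IsLevelAt305 T₀ n m :=
    H165.levelAtC165 K K' 𝔫 T₀ n m hctx.mem_T₀ hctx.lev_m hctx.lev_n
  refine ⟨hc, isCompData_comp681 K K' hctx.base 𝔫 hsys.level_ne, hun, hlev, ?_⟩
  obtain ⟨T₁, T₂, φ₁, Φ₁, f₁, F₁, φ₂, Φ₂, f₂, F₂, hT, -, -, hA, hB', -, -, -, -, hout, -, -⟩ :=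
    hprod
  have hS₁ : SphOut893 B.l T₀ T₁ φ₁ f₁ := hA.2.2.1
  have hS₂ : SphOut893 B.l T₀ T₂ φ₂ f₂ := hB'.2.2.2.2.1
  intro v hv hv0
  obtain ⟨hcv, hcw⟩ := hout v hv hv0
  have hunv := hun v hv0
  by_cases h1 : v ∈ T₁
  · by_cases h2 : v ∈ T₂
    · rw [if_pos h1, if_pos h2] at hcv
      refine sphAt_conv681 hT6 B.l hc v hunv φ₁ φ₂ φ₀ (f₁ v) (f₂ v) (f₀ v)
        (hS₁ v h1 hv0) (hS₂ v h2 hv0) hcv (fun w hvw => ?_)
      have := hcw w hvw
      rw [if_pos h1, if_pos h2] at this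
      exact this
    · rw [if_pos h1, if_neg h2] at hcv
      refine sphAt_conv681 hT6 B.l hc v hunv φ₁ (fun _ => unitFn893 0) φ₀ (f₁ v)
        (unitFn893 0) (f₀ v) (hS₁ v h1 hv0) (sphAt_unit681 B.l v) hcv (fun w hvw => ?_)
      have := hcw w hvw
      rw [if_pos h1, if_neg h2] at this
      exact this
  · by_cases h2 : v ∈ T₂
    · rw [if_neg h1, if_pos h2] at hcv
      refine sphAt_conv681 hT6 B.l hc v hunv (fun _ => unitFn893 0) φ₂ φ₀ (unitFn893 0)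
        (f₂ v) (f₀ v) (sphAt_unit681 B.l v) (hS₂ v h2 hv0) hcv (fun w hvw => ?_)
      have := hcw w hvw
      rw [if_neg h1, if_pos h2] at this
      exact this
    · rw [if_neg h1, if_neg h2] at hcv
      refine sphAt_conv681 hT6 B.l hc v hunv (fun _ => unitFn893 0) (fun _ => unitFn893 0) φ₀
        (unitFn893 0) (unitFn893 0) (f₀ v) (sphAt_unit681 B.l v) (sphAt_unit681 B.l v) hcv
        (fun w hvw => ?_)
      have := hcw w hvw
      rw [if_neg h1, if_neg h2] at this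
      exact this

/-- The products of shape `LocProd51` have the shape `SphOut893`. -/
theorem sphOut_locProd681 (hT6 : T6.T6Out) (ℓ : ℕ) (Φ : HeckeEigensystem K' ℂ) (B : L2Base K K')
    (g : G K') (𝔫 : Ideal (𝓞 K)) (μc : @Measure (GL (Fin 2) ℂ) (borel _))
    (T₀ : Finset (HeightOneSpectrum (𝓞 K)))
    (n n₀ : HeightOneSpectrum (𝓞 K') → ℕ) (m : HeightOneSpectrum (𝓞 K) → ℕ)
    (H' : Finset (G K')) (z' : G K') (H : Finset (G K)) (z : G K) (t : ℂ) (k : ℤ) (j : ℕ)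
    (T : Finset (HeightOneSpectrum (𝓞 K)))
    (φ₀ : ∀ w : HeightOneSpectrum (𝓞 K'), GL (Fin 2) (w.adicCompletion K') → ℂ)
    (Φ' : InfinitePlace K' → GL (Fin 2) ℂ → ℂ)
    (f₀ : ∀ v : HeightOneSpectrum (𝓞 K), GL (Fin 2) (v.adicCompletion K) → ℂ)
    (F : InfinitePlace K → GL (Fin 2) ℂ → ℂ)
    (h : P51.IsLoc51 K K' ℓ Φ B g 𝔫 μc T₀ n n₀ m H' z' H z t k j T φ₀ Φ' f₀ F) :
    SphOut893 B.l T₀ T φ₀ f₀ :=
  (sphAt_locProd681 K K' hT6 ℓ Φ B g 𝔫 μc T₀ n n₀ m H' z' H z t k j T φ₀ Φ' f₀ F h).2.2.2.2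

/-- **LEAF P.L4 = INERT-SPH** from the tower Prop of T6 (VERBATIM `P51.InertSphC51`). -/
theorem inertSphC_of681 (hT6 : T6.T6Out) : P51.InertSphC51 K K' := by
  intro ℓ Φ B g 𝔫 μc T₀ n n₀ m H' z' H z t k j T φ₀ Φ' f₀ F h v hv hv0
  obtain ⟨hc, hD, hun, hlev, hsph⟩ :=
    sphAt_locProd681 K K' hT6 ℓ Φ B g 𝔫 μc T₀ n n₀ m H' z' H z t k j T φ₀ Φ' f₀ F h
  exact sph_inert_at681 hT6 (B.comp 𝔫) hc n m φ₀ f₀ v (hun v hv0) (hlev.1 v hv0)
    (fun w hvw => hlev.2 v w hv0 hvw) (hsph v hv hv0)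

/-- **LEAF P.L6 = SPLIT-SPH** from the tower Prop of T6 (VERBATIM `P51.SplitSphC51`). -/
theorem splitSphC_of681 (hT6 : T6.T6Out) : P51.SplitSphC51 K K' := by
  intro ℓ Φ B g 𝔫 μc T₀ n n₀ m H' z' H z t k j T φ₀ Φ' f₀ F h v hv hv0
  obtain ⟨hc, hD, hun, hlev, hsph⟩ :=
    sphAt_locProd681 K K' hT6 ℓ Φ B g 𝔫 μc T₀ n n₀ m H' z' H z t k j T φ₀ Φ' f₀ F h
  exact sph_split_at681 hT6 (B.comp 𝔫) hD hc T₀ hun n m φ₀ f₀ v hv0 (hlev.1 v hv0)
    (fun w hvw => hlev.2 v w hv0 hvw) (hsph v hv hv0)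

example (hT6 : T6.T6Out) : P51.InertSphC51 K K' := inertSphC_of681 K K' hT6
example (hT6 : T6.T6Out) : P51.SplitSphC51 K K' := splitSphC_of681 K K' hT6

end Leaves

end Fermat.Agent.LT.T7.H681

end
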